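import Fermat.Agent.ES.Rep23.Wrap
import Fermat.Prelude.Def_GaloisRep_Adic

/-!
# ES chain, package REP (part 7): from matrix representations to the prelude structures
-/

set_option autoImplicit false

namespace Fermat.Agent.ES.Rep23

open Module Polynomial

local notation "Γℚ" => (AlgebraicClosure ℚ ≃ₐ[ℚ] AlgebraicClosure ℚ)

section General

variable {G R : Type*} [Group G] [CommRing R]

/-- a matrix representation as a representation on `Fin 2 → R`. -/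
def linOfMatrix (ρ₂ : G →* Matrix (Fin 2) (Fin 2) R) : G →* Module.End R (Fin 2 → R) :=
  ((Matrix.toLinAlgEquiv' (R := R) (n := Fin 2)).toAlgHom :
    Matrix (Fin 2) (Fin 2) R →* Module.End R (Fin 2 → R)).comp ρ₂

theorem linOfMatrix_apply (ρ₂ : G →* Matrix (Fin 2) (Fin 2) R) (g : G) :
    linOfMatrix ρ₂ g = Matrix.toLin' (ρ₂ g) := rfl

theorem charpoly_linOfMatrix (ρ₂ : G →* Matrix (Fin 2) (Fin 2) R) (g : G) :
    LinearMap.charpoly (linOfMatrix ρ₂ g) = (ρ₂ g).charpoly := by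
  rw [linOfMatrix_apply, Matrix.charpoly_toLin']

theorem linOfMatrix_eq_one {ρ₂ : G →* Matrix (Fin 2) (Fin 2) R} {g : G} (h : ρ₂ g = 1) :
    linOfMatrix ρ₂ g = 1 := by
  rw [linOfMatrix_apply, h, Matrix.toLin'_one]
  rfl

/-- change of coefficients. -/
def mapMatrixRep {S : Type*} [CommRing S] (f : R →+* S) (ρ₂ : G →* Matrix (Fin 2) (Fin 2) R) :
    G →* Matrix (Fin 2) (Fin 2) S :=
  ((f.mapMatrix : Matrix (Fin 2) (Fin 2) R →+* Matrix (Fin 2) (Fin 2) S) :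
    Matrix (Fin 2) (Fin 2) R →* Matrix (Fin 2) (Fin 2) S).comp ρ₂

theorem mapMatrixRep_apply {S : Type*} [CommRing S] (f : R →+* S)
    (ρ₂ : G →* Matrix (Fin 2) (Fin 2) R) (g : G) : mapMatrixRep f ρ₂ g = (ρ₂ g).map f := rfl

theorem charpoly_mapMatrixRep {S : Type*} [CommRing S] (f : R →+* S)
    (ρ₂ : G →* Matrix (Fin 2) (Fin 2) R) (g : G) :
    (mapMatrixRep f ρ₂ g).charpoly = (ρ₂ g).charpoly.map f := by
  rw [mapMatrixRep_apply, Matrix.charpoly_map]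

theorem mapMatrixRep_eq_one {S : Type*} [CommRing S] (f : R →+* S)
    {ρ₂ : G →* Matrix (Fin 2) (Fin 2) R} {g : G} (h : ρ₂ g = 1) : mapMatrixRep f ρ₂ g = 1 := by
  rw [mapMatrixRep_apply, h]
  simp

theorem toLin'_sub_mem (I : Ideal R) {M : Matrix (Fin 2) (Fin 2) R}
    (h : ∀ i j, (M - 1) i j ∈ I) (v : Fin 2 → R) :
    Matrix.toLin' M v - v ∈ I • (⊤ : Submodule R (Fin 2 → R)) := by
  have h1 : Matrix.toLin' M v - v = (M - 1).mulVec v := by
    rw [Matrix.toLin'_apply, Matrix.sub_mulVec, Matrix.one_mulVec]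
  rw [h1]
  have h2 : (M - 1).mulVec v = ∑ i, ((M - 1).mulVec v i) • (Pi.single i (1 : R) : Fin 2 → R) := by
    ext k
    simp [Pi.single_apply]
  rw [h2]
  refine Submodule.sum_mem _ fun i _ => Submodule.smul_mem_smul ?_ Submodule.mem_top
  rw [Matrix.mulVec, dotProduct]
  exact Ideal.sum_mem _ fun j _ => I.mul_mem_right _ (h i j)

end General

/-- A residual Galois representation from a matrix representation of finite level. -/
noncomputable def residualOfMatrix {k : Type} [Field k] (ρ₂ : Γℚ →* Matrix (Fin 2) (Fin 2) k)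
    (hfin : ∃ L : IntermediateField ℚ (AlgebraicClosure ℚ), FiniteDimensional ℚ L ∧
      ∀ σ : Γℚ, (∀ x ∈ L, σ x = x) → ρ₂ σ = 1) : ResidualGaloisRep k where
  V := Fin 2 → k
  finrank_eq := Module.finrank_fin_fun k
  ρ := linOfMatrix ρ₂
  factorsThroughFiniteLevel := by
    obtain ⟨L, hL, h⟩ := hfin
    exact ⟨L, hL, fun σ hσ => linOfMatrix_eq_one (h σ hσ)⟩

theorem charpoly_residualOfMatrix {k : Type} [Field k] (ρ₂ : Γℚ →* Matrix (Fin 2) (Fin 2) k)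
    (hfin : ∃ L : IntermediateField ℚ (AlgebraicClosure ℚ), FiniteDimensional ℚ L ∧
      ∀ σ : Γℚ, (∀ x ∈ L, σ x = x) → ρ₂ σ = 1) (σ : Γℚ) :
    LinearMap.charpoly ((residualOfMatrix ρ₂ hfin).ρ σ) = (ρ₂ σ).charpoly :=
  charpoly_linOfMatrix ρ₂ σ

theorem residualOfMatrix_eq_one {k : Type} [Field k] (ρ₂ : Γℚ →* Matrix (Fin 2) (Fin 2) k)
    (hfin : ∃ L : IntermediateField ℚ (AlgebraicClosure ℚ), FiniteDimensional ℚ L ∧
      ∀ σ : Γℚ, (∀ x ∈ L, σ x = x) → ρ₂ σ = 1) {σ : Γℚ} (h : ρ₂ σ = 1) :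
    (residualOfMatrix ρ₂ hfin).ρ σ = 1 :=
  linOfMatrix_eq_one h

/-- An adic Galois representation from a continuous matrix representation. -/
noncomputable def adicOfMatrix {A : Type} [CommRing A] [IsLocalRing A]
    (ρ₂ : Γℚ →* Matrix (Fin 2) (Fin 2) A)
    (hcont : ∀ n : ℕ, ∃ L : IntermediateField ℚ (AlgebraicClosure ℚ), FiniteDimensional ℚ L ∧
      ∀ σ : Γℚ, (∀ x ∈ L, σ x = x) → ∀ i j, (ρ₂ σ - 1) i j ∈ IsLocalRing.maximalIdeal A ^ n) :
    GaloisRepAdic A where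
  V := Fin 2 → A
  finrank_eq := Module.finrank_fin_fun A
  ρ := linOfMatrix ρ₂
  isAdicContinuous := by
    intro n
    obtain ⟨L, hL, h⟩ := hcont n
    exact ⟨L, hL, fun σ hσ v => toLin'_sub_mem _ (h σ hσ) v⟩

theorem charpoly_adicOfMatrix {A : Type} [CommRing A] [IsLocalRing A]
    (ρ₂ : Γℚ →* Matrix (Fin 2) (Fin 2) A)
    (hcont : ∀ n : ℕ, ∃ L : IntermediateField ℚ (AlgebraicClosure ℚ), FiniteDimensional ℚ L ∧
      ∀ σ : Γℚ, (∀ x ∈ L, σ x = x) → ∀ i j, (ρ₂ σ - 1) i j ∈ IsLocalRing.maximalIdeal A ^ n)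
    (σ : Γℚ) :
    LinearMap.charpoly ((adicOfMatrix ρ₂ hcont).ρ σ) = (ρ₂ σ).charpoly :=
  charpoly_linOfMatrix ρ₂ σ

theorem adicOfMatrix_eq_one {A : Type} [CommRing A] [IsLocalRing A]
    (ρ₂ : Γℚ →* Matrix (Fin 2) (Fin 2) A)
    (hcont : ∀ n : ℕ, ∃ L : IntermediateField ℚ (AlgebraicClosure ℚ), FiniteDimensional ℚ L ∧
      ∀ σ : Γℚ, (∀ x ∈ L, σ x = x) → ∀ i j, (ρ₂ σ - 1) i j ∈ IsLocalRing.maximalIdeal A ^ n)
    {σ : Γℚ} (h : ρ₂ σ = 1) : (adicOfMatrix ρ₂ hcont).ρ σ = 1 :=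
  linOfMatrix_eq_one h

theorem eq_one_of_forall_mem_bot {R : Type*} [CommRing R] {M : Matrix (Fin 2) (Fin 2) R}
    (h : ∀ i j, (M - 1) i j ∈ (⊥ : Ideal R)) : M = 1 := by
  ext i j
  have h3 := h i j
  rw [Ideal.mem_bot, Matrix.sub_apply, sub_eq_zero] at h3
  exact h3

end Fermat.Agent.ES.Rep23
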