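import Mathlib

/-!
# ES chain, package REP (part 1): the quadratic relation and its polarisation

`G` a group, `A` an algebra over a commutative ring `R`, `ρ : G →* A`, `ε : G →* R`, `t : G → R`.
The relation `QuadRel ρ ε t` says `ρ g ^ 2 - t g • ρ g + ε g • 1 = 0` for all `g`.
-/

set_option autoImplicit false

namespace Fermat.Agent.ES.Rep23

section Alg

variable {G R A : Type*} [Group G] [CommRing R] [Ring A] [Algebra R A]

/-- The quadratic relation. -/
def QuadRel (ρ : G →* A) (ε : G →* R) (t : G → R) : Prop :=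
  ∀ g, ρ g * ρ g - t g • ρ g + ε g • (1 : A) = 0

variable {ρ : G →* A} {ε : G →* R} {t : G → R}

theorem QuadRel.inv_rel (h : QuadRel ρ ε t) (g : G) :
    ε g • ρ g⁻¹ = t g • (1 : A) - ρ g := by
  have h1 : ρ g * ρ g⁻¹ = 1 := by rw [← map_mul, mul_inv_cancel, map_one]
  have h2 := congrArg (· * ρ g⁻¹) (h g)
  simp only [add_mul, sub_mul, zero_mul, mul_assoc, h1, mul_one, smul_mul_assoc, one_mul] at h2
  have : ε g • ρ g⁻¹ = (ρ g - t g • (1 : A) + ε g • ρ g⁻¹) + (t g • (1 : A) - ρ g) := by abel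
  rw [this, h2, zero_add]

/-- The polarised form of the quadratic relation. -/
theorem QuadRel.polar (h : QuadRel ρ ε t) (g k : G) :
    ρ g * ρ k + ρ k * ρ g =
      t g • ρ k + t k • ρ g + (t (g * k) - t g * t k) • (1 : A) := by
  have h1 := h.inv_rel g
  have h2 := h.inv_rel k
  have h3 := h.inv_rel (g * k)
  have h4 : ε (g * k) • ρ (g * k)⁻¹ = (ε k • ρ k⁻¹) * (ε g • ρ g⁻¹) := by
    rw [mul_inv_rev, map_mul, map_mul, smul_mul_smul_comm, mul_comm (ε k)]
  rw [h4, h1, h2, map_mul] at h3
  have h5 : (t k • (1 : A) - ρ k) * (t g • (1 : A) - ρ g) =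
      (t g * t k) • (1 : A) - t k • ρ g - t g • ρ k + ρ k * ρ g := by
    simp only [sub_mul, mul_sub, smul_mul_assoc, mul_smul_comm, one_mul, mul_one, smul_sub,
      smul_smul]
    abel
  rw [h5] at h3
  rw [sub_smul]
  have : ρ g * ρ k = t (g * k) • (1 : A) - ((t g * t k) • (1 : A) - t k • ρ g - t g • ρ k + ρ k * ρ g) := by
    rw [h3]; abel
  rw [this]; abel

end Alg

section Powers

variable {R A : Type*} [CommRing R] [Ring A] [Algebra R A]

/-- If `a` satisfies `a ^ 2 - s a + e = 0` then every power `a ^ j` satisfies a relation of the same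
shape with `e ^ j`. -/
theorem exists_quad_pow {a : A} {s e : R} (h : a * a - s • a + e • (1 : A) = 0) (j : ℕ) :
    ∃ s' : R, a ^ j * a ^ j - s' • a ^ j + e ^ j • (1 : A) = 0 := by
  -- `a' = s - a`
  set a' : A := s • (1 : A) - a with ha'
  have hcomm : Commute a a' := by
    rw [ha']
    refine Commute.sub_right ?_ (Commute.refl a)
    exact (Commute.one_right a).smul_right s
  have hprod : a * a' = e • (1 : A) := by
    rw [ha', mul_sub, mul_smul_comm, mul_one]
    have : s • a - a * a = e • (1 : A) - (a * a - s • a + e • (1 : A)) := by abel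
    rw [this, h, sub_zero]
  have hsum : ∀ j : ℕ, ∃ s' : R, a ^ j + a' ^ j = s' • (1 : A) ∧
      ∃ s'' : R, a ^ (j + 1) + a' ^ (j + 1) = s'' • (1 : A) := by
    intro j
    induction j with
    | zero =>
      refine ⟨2, by simp [two_smul], s, ?_⟩
      simp [ha']
    | succ j ih =>
      obtain ⟨s0, h0, s1, h1⟩ := ih
      refine ⟨s1, h1, s * s1 - e * s0, ?_⟩
      have key : a ^ (j + 1 + 1) + a' ^ (j + 1 + 1) =
          (a + a') * (a ^ (j + 1) + a' ^ (j + 1)) - (a * a') * (a ^ j + a' ^ j) := by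
        have e1 : a' * a ^ (j + 1) = a * a' * a ^ j := by
          rw [pow_succ', ← mul_assoc, hcomm.eq]
        have e2 : a * a' ^ (j + 1) = a * a' * a' ^ j := by
          rw [pow_succ', ← mul_assoc]
        rw [add_mul, mul_add, mul_add, mul_add, e1, e2, pow_succ' a (j + 1), pow_succ' a' (j + 1)]
        abel
      have hs : a + a' = s • (1 : A) := by rw [ha']; abel
      rw [key, hs, h1, h0, hprod]
      simp only [smul_mul_assoc, one_mul, smul_smul, sub_smul]
  obtain ⟨s', hs', -⟩ := hsum j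
  refine ⟨s', ?_⟩
  have h1 : a ^ j * a' ^ j = e ^ j • (1 : A) := by
    rw [← hcomm.mul_pow, hprod, smul_pow, one_pow]
  have h2 : s' • a ^ j = a ^ j * (a ^ j + a' ^ j) := by
    rw [hs', mul_smul_comm, mul_one]
  rw [h2, mul_add, h1]
  abel

end Powers

end Fermat.Agent.ES.Rep23
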