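import Fermat.Agent.ES.Rep23.Basic
import Fermat.Agent.S53.Burnside

/-!
# ES chain, package REP (part 2): irreducible modules with the quadratic relation have dimension ≤ 2
-/

set_option autoImplicit false

namespace Fermat.Agent.ES.Rep23

open Module Polynomial

section Matrix

variable {G R : Type*} [Group G] [CommRing R]

theorem cayley_two (M : Matrix (Fin 2) (Fin 2) R) :
    M * M - M.trace • M + M.det • (1 : Matrix (Fin 2) (Fin 2) R) = 0 := by
  ext i j
  fin_cases i <;> fin_cases j <;>
    simp [Matrix.mul_apply, Fin.sum_univ_two, Matrix.trace_fin_two, Matrix.det_fin_two] <;> ring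

variable [IsDomain R] {ρ₂ : G →* Matrix (Fin 2) (Fin 2) R} {ε : G →* R} {t : G → R}

theorem scalar_of_smul_eq {M : Matrix (Fin 2) (Fin 2) R} {a b : R} (ha : a ≠ 0)
    (h : a • M = b • (1 : Matrix (Fin 2) (Fin 2) R)) : ∃ c : R, M = c • 1 := by
  refine ⟨M 0 0, ?_⟩
  have h00 := congrFun (congrFun h 0) 0
  have h01 := congrFun (congrFun h 0) 1
  have h10 := congrFun (congrFun h 1) 0
  have h11 := congrFun (congrFun h 1) 1
  simp at h00 h01 h10 h11
  ext i j
  fin_cases i <;> fin_cases j
  · simp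
  · simpa using h01.resolve_left ha
  · simpa using h10.resolve_left ha
  · simp only [Fin.mk_one, Fin.isValue, Matrix.smul_apply, Matrix.one_apply_eq, smul_eq_mul,
      mul_one]
    exact mul_left_cancel₀ ha (h11.trans h00.symm)

/-- A non scalar `2 × 2` matrix satisfying a monic quadratic equation: it is the characteristic
polynomial. -/
theorem trace_det_of_not_scalar {M : Matrix (Fin 2) (Fin 2) R} {s e : R}
    (h : M * M - s • M + e • (1 : Matrix (Fin 2) (Fin 2) R) = 0) (hM : ¬ ∃ c : R, M = c • 1) :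
    M.trace = s ∧ M.det = e := by
  have h1 := cayley_two M
  have h2 : (M.trace - s) • M = (M.det - e) • (1 : Matrix (Fin 2) (Fin 2) R) := by
    rw [sub_smul, sub_smul]
    have : M.trace • M - s • M - (M.det • (1 : Matrix (Fin 2) (Fin 2) R) - e • 1) =
      (M * M - s • M + e • (1 : Matrix (Fin 2) (Fin 2) R)) -
        (M * M - M.trace • M + M.det • (1 : Matrix (Fin 2) (Fin 2) R)) := by abel
    rw [← sub_eq_zero, this, h, h1, sub_zero]
  have h3 : M.trace = s := by
    by_contra hne
    exact hM (scalar_of_smul_eq (sub_ne_zero.mpr hne) h2)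
  refine ⟨h3, ?_⟩
  rw [h3, sub_self, zero_smul] at h2
  have := congrFun (congrFun h2 0) 0
  simp at this
  exact (sub_eq_zero.mp this.symm)

/-- The main matrix lemma. -/
theorem trace_det_of_quadRel (h : QuadRel ρ₂ ε t) (hns : ∃ k, ¬ ∃ c : R, ρ₂ k = c • 1) (g : G) :
    (ρ₂ g).trace = t g ∧ (ρ₂ g).det = ε g := by
  by_cases hg : ∃ c : R, ρ₂ g = c • 1
  · obtain ⟨c, hc⟩ := hg
    obtain ⟨k, hk⟩ := hns
    have hp := h.polar g k
    rw [hc] at hp
    have h1 : (2 * c - t g) • ρ₂ k =
        (t k * c + (t (g * k) - t g * t k)) • (1 : Matrix (Fin 2) (Fin 2) R) := by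
      have e1 : c • (1 : Matrix (Fin 2) (Fin 2) R) * ρ₂ k + ρ₂ k * c • 1 = (2 * c) • ρ₂ k := by
        rw [smul_mul_assoc, one_mul, mul_smul_comm, mul_one, ← add_smul, two_mul]
      rw [e1] at hp
      rw [sub_smul, hp, add_smul, smul_smul]
      abel
    have h2 : t g = 2 * c := by
      by_contra hne
      exact hk (scalar_of_smul_eq (sub_ne_zero.mpr (Ne.symm hne)) h1)
    have h3 := h g
    rw [hc, h2] at h3
    have h4 := congrFun (congrFun h3 0) 0
    simp at h4
    constructor
    · rw [hc, h2]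
      simp
      ring
    · rw [hc]
      simp
      linear_combination (-1 : R) * h4
  · exact trace_det_of_not_scalar (h g) hg

theorem charpoly_of_quadRel (h : QuadRel ρ₂ ε t) (hns : ∃ k, ¬ ∃ c : R, ρ₂ k = c • 1) (g : G) :
    (ρ₂ g).charpoly = X ^ 2 - C (t g) * X + C (ε g) := by
  obtain ⟨h1, h2⟩ := trace_det_of_quadRel h hns g
  rw [Matrix.charpoly_fin_two, h1, h2]

end Matrix

section Diag

variable {G R : Type*} [Group G] [CommRing R]

/-- the reducible representation `ψ ⊕ ε ψ⁻¹`. -/
def diagRep (ψ ε : G →* R) : G →* Matrix (Fin 2) (Fin 2) R where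
  toFun g := Matrix.diagonal ![ψ g, ε g * ψ g⁻¹]
  map_one' := by
    ext i j
    fin_cases i <;> fin_cases j <;> simp
  map_mul' g k := by
    rw [Matrix.diagonal_mul_diagonal]
    congr 1
    ext i
    fin_cases i
    · simp
    · simp only [mul_inv_rev, map_mul]
      simp
      ring

theorem diagRep_apply (ψ ε : G →* R) (g : G) :
    diagRep ψ ε g = Matrix.diagonal ![ψ g, ε g * ψ g⁻¹] := rfl

theorem charpoly_diagRep [Nontrivial R] {ψ ε : G →* R} {t : G → R}
    (h : ∀ g, ψ g * ψ g - t g * ψ g + ε g = 0) (g : G) :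
    (diagRep ψ ε g).charpoly = X ^ 2 - C (t g) * X + C (ε g) := by
  have h1 : ψ g * ψ g⁻¹ = 1 := by rw [← map_mul, mul_inv_cancel, map_one]
  have h2 : ψ g + ε g * ψ g⁻¹ = t g := by
    have := h g
    linear_combination (ψ g⁻¹) * this + (t g - ψ g) * h1
  rw [Matrix.charpoly_fin_two, diagRep_apply]
  simp only [Matrix.trace_fin_two, Matrix.det_fin_two, Matrix.diagonal_apply_eq,
    Matrix.cons_val_zero, Matrix.cons_val_one]
  rw [h2]
  congr 2
  simp
  linear_combination (ε g) * h1

end Diag

end Fermat.Agent.ES.Rep23
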