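import Fermat.Agent.ES.Rep23.Field

/-!
# ES chain, package REP (part 3): irreducible submodules, dimension bound
-/

set_option autoImplicit false

namespace Fermat.Agent.ES.Rep23

open Module Polynomial

section Ring

variable {G R M : Type*} [Group G] [CommRing R] [AddCommGroup M] [Module R M]

/-- invariant submodules. -/
def IsInv (ρ : G →* Module.End R M) (V : Submodule R M) : Prop := ∀ g, ∀ x ∈ V, ρ g x ∈ V

/-- irreducibility (the zero module is allowed). -/
def IsIrr (ρ : G →* Module.End R M) : Prop := ∀ V : Submodule R M, IsInv ρ V → V = ⊥ ∨ V = ⊤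

/-- restriction to an invariant submodule. -/
def restr (ρ : G →* Module.End R M) (V : Submodule R M) (hV : IsInv ρ V) :
    G →* Module.End R V where
  toFun g := (ρ g).restrict (hV g)
  map_one' := by
    ext x
    simp
  map_mul' g k := by
    ext x
    simp

@[simp] theorem restr_apply (ρ : G →* Module.End R M) (V : Submodule R M) (hV : IsInv ρ V) (g : G)
    (x : V) : (restr ρ V hV g x : M) = ρ g x := rfl

theorem QuadRel.restr {ρ : G →* Module.End R M} {ε : G →* R} {t : G → R} (h : QuadRel ρ ε t)
    (V : Submodule R M) (hV : IsInv ρ V) : QuadRel (restr ρ V hV) ε t := by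
  intro g
  ext x
  have := congrArg (fun f : Module.End R M => f (x : M)) (h g)
  simpa using this

/-- transport of the quadratic relation along an algebra homomorphism. -/
theorem QuadRel.map {A B : Type*} [Ring A] [Algebra R A] [Ring B] [Algebra R B]
    {ρ : G →* A} {ε : G →* R} {t : G → R} (h : QuadRel ρ ε t) (f : A →ₐ[R] B) :
    QuadRel ((f : A →* B).comp ρ) ε t := by
  intro g
  have := congrArg f (h g)
  simpa using this

end Ring

variable {G K W : Type*} [Group G] [Field K] [AddCommGroup W] [Module K W]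

theorem exists_irr_sub (ρ : G →* Module.End K W) [FiniteDimensional K W] [Nontrivial W] :
    ∃ (V : Submodule K W) (hV : IsInv ρ V), V ≠ ⊥ ∧ IsIrr (restr ρ V hV) := by
  classical
  have hex : ∃ n, ∃ V : Submodule K W, IsInv ρ V ∧ V ≠ ⊥ ∧ finrank K V = n :=
    ⟨_, ⊤, fun _ _ _ => Submodule.mem_top, top_ne_bot, rfl⟩
  obtain ⟨V, hV, hne, hn⟩ := Nat.find_spec hex
  refine ⟨V, hV, hne, ?_⟩
  intro U hU
  by_cases hU0 : U = ⊥
  · exact Or.inl hU0
  right
  have hU' : IsInv ρ (U.map V.subtype) := by
    rintro g _ ⟨x, hx, rfl⟩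
    exact ⟨restr ρ V hV g x, hU g x hx, rfl⟩
  have hne' : U.map V.subtype ≠ ⊥ := by
    intro h0
    apply hU0
    rw [eq_bot_iff]
    intro y hy
    have : (V.subtype y) ∈ U.map V.subtype := ⟨y, hy, rfl⟩
    rw [h0] at this
    exact Subtype.ext (by simpa using this)
  have hmin := Nat.find_min' hex ⟨U.map V.subtype, hU', hne', rfl⟩
  rw [← hn] at hmin
  have hle : U.map V.subtype ≤ V := Submodule.map_subtype_le V U
  have heq : U.map V.subtype = V := Submodule.eq_of_le_of_finrank_le hle hmin
  rw [eq_top_iff]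
  intro x _
  have hx : (x : W) ∈ U.map V.subtype := by rw [heq]; exact x.2
  obtain ⟨y, hy, hyx⟩ := hx
  have : y = x := Subtype.ext hyx
  exact this ▸ hy

theorem span_orbit_eq_top {ρ : G →* Module.End K W} (hirr : IsIrr ρ) {v : W} (hv : v ≠ 0) :
    Submodule.span K (Set.range fun g => ρ g v) = ⊤ := by
  have hinv : IsInv ρ (Submodule.span K (Set.range fun g => ρ g v)) := by
    intro g x hx
    induction hx using Submodule.span_induction with
    | mem y hy =>
      obtain ⟨k, rfl⟩ := hy
      apply Submodule.subset_span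
      exact ⟨g * k, by simp⟩
    | zero => simp
    | add y z _ _ hy hz => rw [map_add]; exact Submodule.add_mem _ hy hz
    | smul a y _ hy => rw [map_smul]; exact Submodule.smul_mem _ _ hy
  rcases hirr _ hinv with h | h
  · exfalso
    apply hv
    have : ρ 1 v ∈ Submodule.span K (Set.range fun g => ρ g v) :=
      Submodule.subset_span ⟨1, rfl⟩
    rw [h] at this
    simpa using this
  · exact h

section Odd

variable {ρ : G →* Module.End K W} {ε : G →* K} {t : G → K}

theorem t_eq_zero_of_odd [Nontrivial W] (h : QuadRel ρ ε t) {c : G} (hc : ρ c * ρ c = 1)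
    (hε : ε c = -1) : t c = 0 := by
  have h1 := h c
  rw [hc, hε] at h1
  have h2 : t c • ρ c = 0 := by
    have : t c • ρ c = -((1 : Module.End K W) - t c • ρ c + (-1 : K) • (1 : Module.End K W)) := by
      rw [neg_smul, one_smul]; abel
    rw [this, h1, neg_zero]
  have h3 : t c • (1 : Module.End K W) = 0 := by
    rw [← hc, ← smul_mul_assoc, h2, zero_mul]
  rcases smul_eq_zero.mp h3 with h4 | h4
  · exact h4
  · exact absurd h4 one_ne_zero

/-- auxiliary: the range of `1 + s c` (`s = ± 1`) has dimension at most one. -/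
theorem finrank_range_le_one [FiniteDimensional K W] [Nontrivial W] (h : QuadRel ρ ε t)
    (hirr : IsIrr ρ) {c : G} (hc : ρ c * ρ c = 1) (hε : ε c = -1) (s : K) (hs : s * s = 1) :
    finrank K (LinearMap.range ((1 : Module.End K W) + s • ρ c)) ≤ 1 := by
  have ht := t_eq_zero_of_odd h hc hε
  by_cases h0 : LinearMap.range ((1 : Module.End K W) + s • ρ c) = ⊥
  · rw [h0]; simp
  obtain ⟨v, hv, hv0⟩ := (Submodule.ne_bot_iff _).mp h0
  obtain ⟨x, rfl⟩ := hv
  set v := ((1 : Module.End K W) + s • ρ c) x with hvdef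
  have hcc : ∀ y, ρ c (ρ c y) = y := fun y => by
    have := congrArg (fun f : Module.End K W => f y) hc
    simpa using this
  have hcv : ρ c v = s • v := by
    simp only [hvdef, LinearMap.add_apply, Module.End.one_apply, LinearMap.smul_apply, map_add,
      map_smul, hcc, smul_add, smul_smul, hs, one_smul]
    abel
  have key : ∀ k : G, ((1 : Module.End K W) + s • ρ c) (ρ k v) = (t k + s * t (c * k)) • v := by
    intro k
    have hp := congrArg (fun f : Module.End K W => f v) (h.polar c k)
    simp only [ht, zero_smul, zero_add, zero_mul, sub_zero, LinearMap.add_apply,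
      Module.End.mul_apply, LinearMap.smul_apply, Module.End.one_apply, hcv, map_smul] at hp
    -- hp : ρ c (ρ k v) + s • ρ k v = t k • s • v + t (c * k) • v
    simp only [LinearMap.add_apply, Module.End.one_apply, LinearMap.smul_apply]
    have : ρ k v + s • ρ c (ρ k v) = s • (ρ c (ρ k v) + s • ρ k v) := by
      rw [smul_add, smul_smul, hs, one_smul, add_comm]
    rw [this, hp, smul_add, smul_smul, smul_smul, smul_smul, add_smul]
    congr 2
    rw [mul_comm s (t k), mul_assoc, hs, mul_one]
  have hle : LinearMap.range ((1 : Module.End K W) + s • ρ c) ≤ Submodule.span K {v} := by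
    rintro _ ⟨y, rfl⟩
    have hy : y ∈ Submodule.span K (Set.range fun g => ρ g v) := by
      rw [span_orbit_eq_top hirr hv0]; exact Submodule.mem_top
    induction hy using Submodule.span_induction with
    | mem z hz =>
      obtain ⟨k, rfl⟩ := hz
      simp only []
      rw [key k]
      exact Submodule.smul_mem _ _ (Submodule.mem_span_singleton_self v)
    | zero => simp
    | add y z _ _ hy hz => rw [map_add]; exact Submodule.add_mem _ hy hz
    | smul a y _ hy => rw [map_smul]; exact Submodule.smul_mem _ _ hy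
  calc finrank K (LinearMap.range ((1 : Module.End K W) + s • ρ c))
      ≤ finrank K (Submodule.span K {v}) := Submodule.finrank_mono hle
    _ ≤ 1 := by
      have := finrank_span_le_card (R := K) ({v} : Set W)
      simpa using this

theorem finrank_le_two_of_odd [FiniteDimensional K W] (h : QuadRel ρ ε t)
    (hirr : IsIrr ρ) (h2 : (2 : K) ≠ 0) {c : G} (hc : ρ c * ρ c = 1) (hε : ε c = -1) :
    finrank K W ≤ 2 := by
  rcases subsingleton_or_nontrivial W with hW | hW
  · rw [finrank_zero_of_subsingleton]; exact Nat.zero_le _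
  have h1 := finrank_range_le_one h hirr hc hε 1 (by ring)
  have h3 := finrank_range_le_one h hirr hc hε (-1) (by ring)
  have htop : (⊤ : Submodule K W) ≤ LinearMap.range ((1 : Module.End K W) + (1 : K) • ρ c) ⊔
      LinearMap.range ((1 : Module.End K W) + (-1 : K) • ρ c) := by
    intro x _
    have : x = ((1 : Module.End K W) + (1 : K) • ρ c) ((2 : K)⁻¹ • x) +
        ((1 : Module.End K W) + (-1 : K) • ρ c) ((2 : K)⁻¹ • x) := by
      simp only [LinearMap.add_apply, Module.End.one_apply, LinearMap.smul_apply, one_smul,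
        neg_smul, LinearMap.neg_apply]
      have : (2 : K)⁻¹ • x + (2 : K)⁻¹ • x = x := by
        rw [← add_smul, ← two_mul, mul_inv_cancel₀ h2, one_smul]
      nth_rewrite 1 [← this]
      abel
    rw [this]
    exact Submodule.add_mem_sup ⟨_, rfl⟩ ⟨_, rfl⟩
  calc finrank K W = finrank K (⊤ : Submodule K W) := (finrank_top K W).symm
    _ ≤ _ := Submodule.finrank_mono htop
    _ ≤ _ := Submodule.finrank_add_le_finrank_add_finrank _ _
    _ ≤ 2 := by omega

end Odd

section AlgClosed

variable {ρ : G →* Module.End K W} {ε : G →* K} {t : G → K}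

theorem span_range_eq_top_of_irr [IsAlgClosed K] [FiniteDimensional K W] [Nontrivial W]
    (hirr : IsIrr ρ) : Submodule.span K (Set.range ρ) = ⊤ := by
  have h1 : Algebra.adjoin K (Set.range ρ) = ⊤ := by
    apply Fermat.Agent.S53.burnside_subalgebra
    intro V hV
    exact hirr V fun g x hx => hV _ (Algebra.subset_adjoin ⟨g, rfl⟩) x hx
  have h2 := Algebra.adjoin_eq_span K (Set.range ρ)
  rw [h1] at h2
  have h3 : (Submonoid.closure (Set.range ρ) : Set (Module.End K W)) = Set.range ρ := by
    rw [← MonoidHom.coe_mrange, Submonoid.closure_eq]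
  rw [h3] at h2
  rw [← h2]
  rfl

theorem exists_anticomm [IsAlgClosed K] [FiniteDimensional K W] [Nontrivial W]
    (h : QuadRel ρ ε t) (hirr : IsIrr ρ) (a b : Module.End K W) :
    ∃ α β γ : K, a * b + b * a = β • a + α • b + γ • (1 : Module.End K W) := by
  have hspan := span_range_eq_top_of_irr hirr
  have h1 : ∃ α : K, ∀ k : G, ∃ γ : K,
      a * ρ k + ρ k * a = t k • a + α • ρ k + γ • (1 : Module.End K W) := by
    have ha : a ∈ Submodule.span K (Set.range ρ) := hspan ▸ Submodule.mem_top
    induction ha using Submodule.span_induction with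
    | mem x hx =>
      obtain ⟨g, rfl⟩ := hx
      refine ⟨t g, fun k => ⟨t (g * k) - t g * t k, ?_⟩⟩
      rw [h.polar g k]
      abel
    | zero => exact ⟨0, fun k => ⟨0, by simp⟩⟩
    | add x y _ _ hx hy =>
      obtain ⟨α₁, h₁⟩ := hx
      obtain ⟨α₂, h₂⟩ := hy
      refine ⟨α₁ + α₂, fun k => ?_⟩
      obtain ⟨γ₁, e₁⟩ := h₁ k
      obtain ⟨γ₂, e₂⟩ := h₂ k
      refine ⟨γ₁ + γ₂, ?_⟩
      have : (x + y) * ρ k + ρ k * (x + y) = (x * ρ k + ρ k * x) + (y * ρ k + ρ k * y) := by
        rw [add_mul, mul_add]; abel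
      rw [this, e₁, e₂, smul_add, add_smul, add_smul]
      abel
    | smul r x _ hx =>
      obtain ⟨α₁, h₁⟩ := hx
      refine ⟨r * α₁, fun k => ?_⟩
      obtain ⟨γ₁, e₁⟩ := h₁ k
      refine ⟨r * γ₁, ?_⟩
      have : (r • x) * ρ k + ρ k * (r • x) = r • (x * ρ k + ρ k * x) := by
        rw [smul_mul_assoc, mul_smul_comm, smul_add]
      rw [this, e₁, smul_add, smul_add, smul_smul, smul_smul, smul_smul, smul_smul, mul_comm r (t k)]
  obtain ⟨α, hα⟩ := h1
  refine ⟨α, ?_⟩
  have hb : b ∈ Submodule.span K (Set.range ρ) := hspan ▸ Submodule.mem_top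
  induction hb using Submodule.span_induction with
  | mem x hx =>
    obtain ⟨k, rfl⟩ := hx
    obtain ⟨γ, e⟩ := hα k
    exact ⟨t k, γ, e⟩
  | zero => exact ⟨0, 0, by simp⟩
  | add x y _ _ hx hy =>
    obtain ⟨β₁, γ₁, e₁⟩ := hx
    obtain ⟨β₂, γ₂, e₂⟩ := hy
    refine ⟨β₁ + β₂, γ₁ + γ₂, ?_⟩
    have : a * (x + y) + (x + y) * a = (a * x + x * a) + (a * y + y * a) := by
      rw [add_mul, mul_add]; abel
    rw [this, e₁, e₂, smul_add, add_smul, add_smul]
    abel
  | smul r x _ hx =>
    obtain ⟨β₁, γ₁, e₁⟩ := hx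
    refine ⟨r * β₁, r * γ₁, ?_⟩
    have : a * (r • x) + (r • x) * a = r • (a * x + x * a) := by
      rw [smul_mul_assoc, mul_smul_comm, smul_add]
    rw [this, e₁, smul_add, smul_add, smul_smul, smul_smul, smul_smul, smul_smul, mul_comm r α]

theorem finrank_le_two_of_algClosed [IsAlgClosed K] [FiniteDimensional K W]
    (h : QuadRel ρ ε t) (hirr : IsIrr ρ) : finrank K W ≤ 2 := by
  classical
  rcases subsingleton_or_nontrivial W with hW | hW
  · rw [finrank_zero_of_subsingleton]; exact Nat.zero_le _
  by_contra hlt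
  push Not at hlt
  let bs := Module.finBasis K W
  let i₁ : Fin (finrank K W) := ⟨0, by omega⟩
  let i₂ : Fin (finrank K W) := ⟨1, by omega⟩
  let i₃ : Fin (finrank K W) := ⟨2, by omega⟩
  have h12 : i₁ ≠ i₂ := by simp [i₁, i₂, Fin.ext_iff]
  have h13 : i₁ ≠ i₃ := by simp [i₁, i₃, Fin.ext_iff]
  have h23 : i₂ ≠ i₃ := by simp [i₂, i₃, Fin.ext_iff]
  let a : Module.End K W := bs.constr K (fun i => if i = i₂ then bs i₁ else 0)
  let b : Module.End K W := bs.constr K (fun i => if i = i₃ then bs i₂ else 0)
  obtain ⟨α, β, γ, e⟩ := exists_anticomm h hirr a b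
  have e3 := congrArg (fun f : Module.End K W => f (bs i₃)) e
  have ha3 : a (bs i₃) = 0 := by simp [a, h23.symm]
  have hb3 : b (bs i₃) = bs i₂ := by simp [b]
  have ha2 : a (bs i₂) = bs i₁ := by simp [a]
  simp only [LinearMap.add_apply, Module.End.mul_apply, LinearMap.smul_apply,
    Module.End.one_apply, ha3, hb3, ha2, map_zero, add_zero, smul_zero, zero_add] at e3
  -- e3 : bs i₁ = α • bs i₂ + γ • bs i₃
  have := congrArg (fun w => bs.repr w i₁) e3
  simp [h12.symm, h13.symm] at this

end AlgClosed

end Fermat.Agent.ES.Rep23
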