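import Fermat.Agent.ES.Rep23.Irr

/-!
# ES chain, package REP (part 4): the two dimensional representation, integral version

`O` a principal ideal domain with fraction field `K`; `Mρ : G →* Matrix (Fin m) (Fin m) O`
satisfying the quadratic relation.  We produce `ρ₂ : G →* Matrix (Fin 2) (Fin 2) O` with
characteristic polynomials `X ^ 2 - t g X + ε g`, controlled by `Mρ` and `ε` modulo every ideal.
-/

set_option autoImplicit false

namespace Fermat.Agent.ES.Rep23

open Module Polynomial

variable {G O : Type*} (K : Type*) [Group G] [CommRing O] [Field K] [Algebra O K] {m : ℕ}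

/-- coordinatewise embedding. -/
def iota (m : ℕ) : (Fin m → O) →ₗ[O] (Fin m → K) := (Algebra.linearMap O K).compLeft (Fin m)

omit [Group G] in
@[simp] theorem iota_apply (x : Fin m → O) (i : Fin m) : iota K m x i = algebraMap O K (x i) := rfl

/-- the representation on `O ^ m`. -/
def repO (Mρ : G →* Matrix (Fin m) (Fin m) O) : G →* Module.End O (Fin m → O) :=
  ((Matrix.toLinAlgEquiv' (R := O) (n := Fin m)).toAlgHom :
    Matrix (Fin m) (Fin m) O →* Module.End O (Fin m → O)).comp Mρ

/-- the matrices over `K`. -/
def matK (Mρ : G →* Matrix (Fin m) (Fin m) O) : G →* Matrix (Fin m) (Fin m) K :=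
  (((algebraMap O K).mapMatrix : Matrix (Fin m) (Fin m) O →+* Matrix (Fin m) (Fin m) K) :
    Matrix (Fin m) (Fin m) O →* Matrix (Fin m) (Fin m) K).comp Mρ

/-- the representation on `K ^ m`. -/
def repK (Mρ : G →* Matrix (Fin m) (Fin m) O) : G →* Module.End K (Fin m → K) :=
  ((Matrix.toLinAlgEquiv' (R := K) (n := Fin m)).toAlgHom :
    Matrix (Fin m) (Fin m) K →* Module.End K (Fin m → K)).comp (matK K Mρ)

theorem repO_apply (Mρ : G →* Matrix (Fin m) (Fin m) O) (g : G) (x : Fin m → O) :
    repO Mρ g x = (Mρ g).mulVec x := rfl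

theorem repK_apply (Mρ : G →* Matrix (Fin m) (Fin m) O) (g : G) (x : Fin m → K) :
    repK K Mρ g x = ((Mρ g).map (algebraMap O K)).mulVec x := rfl

theorem repK_iota (Mρ : G →* Matrix (Fin m) (Fin m) O) (g : G) (x : Fin m → O) :
    repK K Mρ g (iota K m x) = iota K m (repO Mρ g x) := by
  rw [repK_apply, repO_apply]
  ext i
  simp only [iota_apply, Matrix.mulVec, dotProduct, Matrix.map_apply, map_sum, map_mul]

/-- `ε` with values in `K`. -/
def epsK (ε : G →* O) : G →* K := ((algebraMap O K : O →+* K) : O →* K).comp ε

variable {K}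

theorem quadRel_matK {Mρ : G →* Matrix (Fin m) (Fin m) O} {ε : G →* O} {t : G → O}
    (h : QuadRel Mρ ε t) : QuadRel (matK K Mρ) (epsK K ε) (fun g => algebraMap O K (t g)) := by
  intro g
  have h1 := congrArg (algebraMap O K).mapMatrix (h g)
  rw [map_add, map_sub, map_mul, map_zero] at h1
  have h2 : ∀ (r : O) (M : Matrix (Fin m) (Fin m) O),
      (algebraMap O K).mapMatrix (r • M) = algebraMap O K r • (algebraMap O K).mapMatrix M := by
    intro r M
    ext i j
    simp
  rw [h2, h2, map_one] at h1
  exact h1

theorem quadRel_repK {Mρ : G →* Matrix (Fin m) (Fin m) O} {ε : G →* O} {t : G → O}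
    (h : QuadRel Mρ ε t) : QuadRel (repK K Mρ) (epsK K ε) (fun g => algebraMap O K (t g)) :=
  (quadRel_matK h).map _

theorem quadRel_repO {Mρ : G →* Matrix (Fin m) (Fin m) O} {ε : G →* O} {t : G → O}
    (h : QuadRel Mρ ε t) : QuadRel (repO Mρ) ε t :=
  h.map _

variable (K) in
/-- the lattice of a subspace. -/
def latt (V : Submodule K (Fin m → K)) : Submodule O (Fin m → O) :=
  (V.restrictScalars O).comap (iota K m)

omit [Group G] in
theorem mem_latt {V : Submodule K (Fin m → K)} {x : Fin m → O} :
    x ∈ latt K V ↔ iota K m x ∈ V := Iff.rfl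

theorem isInv_latt {Mρ : G →* Matrix (Fin m) (Fin m) O} {V : Submodule K (Fin m → K)}
    (hV : IsInv (repK K Mρ) V) : IsInv (repO Mρ) (latt K V) := by
  intro g x hx
  rw [mem_latt, ← repK_iota]
  exact hV g _ hx

variable [IsDomain O] [IsFractionRing O K]

omit [Group G] [IsDomain O] in
theorem iota_injective : Function.Injective (iota K m : (Fin m → O) → (Fin m → K)) := by
  intro x y hxy
  ext i
  exact IsFractionRing.injective O K (congrFun hxy i)

omit [Group G] [IsDomain O] in
theorem latt_saturated {V : Submodule K (Fin m → K)} {a : O} (ha : a ≠ 0) {y : Fin m → O}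
    (hy : a • y ∈ latt K V) : y ∈ latt K V := by
  rw [mem_latt, map_smul] at hy
  rw [mem_latt]
  have ha' : algebraMap O K a ≠ 0 := by
    intro h0
    exact ha (IsFractionRing.injective O K (by rw [h0, map_zero]))
  rw [← algebraMap_smul K a] at hy
  exact (V.smul_mem_iff ha').mp hy

/-- An `O`-basis of the lattice gives a `K`-basis of the subspace. -/
noncomputable def lattBasis {V : Submodule K (Fin m → K)} {r : ℕ}
    (b : Basis (Fin r) O (latt (O := O) K V)) : Basis (Fin r) K V :=
  Basis.mk (v := fun i => (⟨iota K m (b i : Fin m → O), (b i).2⟩ : V))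
    (by
      have h1 : LinearIndependent O (fun i => iota K m (b i : Fin m → O)) := by
        have := b.linearIndependent.map' ((iota K m).comp (latt K V).subtype) (by
          rw [LinearMap.ker_eq_bot]
          exact iota_injective.comp (Submodule.injective_subtype _))
        exact this
      have h2 : LinearIndependent K (fun i => iota K m (b i : Fin m → O)) :=
        (LinearIndependent.iff_fractionRing O K).mp h1
      exact LinearIndependent.of_comp V.subtype h2)
    (by
      rintro ⟨x, hx⟩ -
      obtain ⟨d, hd⟩ := IsLocalization.exist_integer_multiples_of_finite (nonZeroDivisors O) x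
      choose y hy using hd
      have hd0 : algebraMap O K (d : O) ≠ 0 := by
        intro h0
        exact nonZeroDivisors.ne_zero d.2 (IsFractionRing.injective O K (by rw [h0, map_zero]))
      have hyx : iota K m y = algebraMap O K (d : O) • x := by
        ext i
        rw [iota_apply, hy i, Pi.smul_apply, Algebra.smul_def, smul_eq_mul]
      have hyΛ : y ∈ latt K V := by
        rw [mem_latt, hyx]
        exact V.smul_mem _ hx
      set S := Submodule.span K
        (Set.range fun i => (⟨iota K m (b i : Fin m → O), (b i).2⟩ : V)) with hS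
      have key : ∀ z : latt (O := O) K V, (⟨iota K m (z : Fin m → O), z.2⟩ : V) ∈ S := by
        intro z
        have hz := b.sum_repr z
        have : (⟨iota K m (z : Fin m → O), z.2⟩ : V) =
            ∑ i, algebraMap O K (b.repr z i) •
              (⟨iota K m (b i : Fin m → O), (b i).2⟩ : V) := by
          apply Subtype.ext
          rw [AddSubmonoidClass.coe_finset_sum]
          simp only [Submodule.coe_smul]
          conv_lhs => rw [← hz]
          rw [AddSubmonoidClass.coe_finset_sum, map_sum]
          refine Finset.sum_congr rfl fun i _ => ?_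
          rw [Submodule.coe_smul, map_smul, algebraMap_smul]
        rw [this]
        exact Submodule.sum_mem _ fun i _ => Submodule.smul_mem _ _ (Submodule.subset_span ⟨i, rfl⟩)
      have h3 := key ⟨y, hyΛ⟩
      have h4 : (⟨x, hx⟩ : V) = (algebraMap O K (d : O))⁻¹ • (⟨iota K m y, hyΛ⟩ : V) := by
        apply Subtype.ext
        simp only [Submodule.coe_smul]
        rw [hyx, smul_smul, inv_mul_cancel₀ hd0, one_smul]
      rw [h4]
      exact Submodule.smul_mem _ _ h3)

theorem lattBasis_apply {V : Submodule K (Fin m → K)} {r : ℕ}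
    (b : Basis (Fin r) O (latt (O := O) K V)) (i : Fin r) :
    ((lattBasis b i : V) : Fin m → K) = iota K m (b i : Fin m → O) := by
  rw [lattBasis, Basis.mk_apply]

end Fermat.Agent.ES.Rep23
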