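import Fermat.Agent.ES.Rep23.Lattice

/-!
# ES chain, package REP (part 5): main theorem in matrix form
-/

set_option autoImplicit false

namespace Fermat.Agent.ES.Rep23

open Module Polynomial

variable {G O : Type*} (K : Type*) [Group G] [CommRing O] [Field K] [Algebra O K] {m : ℕ}
  [IsDomain O] [IsFractionRing O K] [IsPrincipalIdealRing O]

omit [IsFractionRing O K] [Field K] [Algebra O K] [IsDomain O] [IsPrincipalIdealRing O] in
theorem diagRep_control {ψ ε : G →* O} (I : Ideal O) (g : G) (h1 : ψ g - 1 ∈ I)
    (h2 : ε g - 1 ∈ I) (i j : Fin 2) : (diagRep ψ ε g - 1) i j ∈ I := by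
  have hinv : ψ g * ψ g⁻¹ = 1 := by rw [← map_mul, mul_inv_cancel, map_one]
  have h3 : ε g * ψ g⁻¹ - 1 ∈ I := by
    have : ε g * ψ g⁻¹ - 1 = (ε g - 1) * ψ g⁻¹ - (ψ g - 1) * ψ g⁻¹ := by
      linear_combination (1 : O) * hinv
    rw [this]
    exact I.sub_mem (I.mul_mem_right _ h2) (I.mul_mem_right _ h1)
  rw [diagRep_apply]
  fin_cases i <;> fin_cases j
  · simpa using h1
  · simp
  · simp
  · simpa using h3

/-- **REP, matrix form.** -/
theorem exists_rep_two_matrix (hm : 0 < m) (Mρ : G →* Matrix (Fin m) (Fin m) O) (ε : G →* O)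
    (t : G → O) (h : QuadRel Mρ ε t)
    (hcase : IsAlgClosed K ∨ ((2 : K) ≠ 0 ∧ ∃ c, Mρ c * Mρ c = 1 ∧ ε c = -1)) :
    ∃ ρ₂ : G →* Matrix (Fin 2) (Fin 2) O,
      (∀ g, (ρ₂ g).charpoly = X ^ 2 - C (t g) * X + C (ε g)) ∧
      ∀ (I : Ideal O) (g : G), (∀ i j, (Mρ g - 1) i j ∈ I) → ε g - 1 ∈ I →
        ∀ i j, (ρ₂ g - 1) i j ∈ I := by
  classical
  have : Nonempty (Fin m) := ⟨⟨0, hm⟩⟩
  have : Nontrivial (Fin m → K) := inferInstance
  obtain ⟨V, hV, hne, hirr⟩ := exists_irr_sub (repK K Mρ)
  have hq := (quadRel_repK (K := K) h).restr V hV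
  have hle : finrank K V ≤ 2 := by
    rcases hcase with hac | ⟨h2, c, hc, hε⟩
    · exact finrank_le_two_of_algClosed hq hirr
    · refine finrank_le_two_of_odd hq hirr h2 (c := c) ?_ ?_
      · have h1 : Mρ (c * c) = 1 := by rw [map_mul, hc]
        have h3 : repK K Mρ (c * c) = 1 := by
          refine LinearMap.ext fun x => ?_
          rw [repK_apply, h1]
          simp
        rw [← map_mul]
        ext x
        rw [restr_apply, h3]
        rfl
      · simp [epsK, hε]
  have hpos : 0 < finrank K V := by
    rw [Module.finrank_pos_iff]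
    exact Submodule.nontrivial_iff_ne_bot.mpr hne
  obtain ⟨r, b⟩ := Submodule.basisOfPid (Pi.basisFun O (Fin m)) (latt (O := O) K V)
  have hr : finrank K V = r := by
    simpa using Module.finrank_eq_card_basis (lattBasis b)
  set ρΛ : G →* Module.End O (latt (O := O) K V) :=
    restr (repO Mρ) (latt K V) (isInv_latt hV) with hρΛ
  have hqΛ : QuadRel (R := O) (A := Module.End O (latt (O := O) K V)) ρΛ ε t :=
    (quadRel_repO h).restr (latt K V) (isInv_latt hV)
  -- control on the lattice
  have hctl : ∀ (I : Ideal O) (g : G), (∀ i j, (Mρ g - 1) i j ∈ I) →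
      ∀ (z : latt (O := O) K V) (i : Fin r), b.repr (ρΛ g z - z) i ∈ I := by
    intro I g hI z i
    obtain ⟨a, rfl⟩ := IsPrincipalIdealRing.principal I
    have hx : ∀ k, ((ρΛ g z - z : latt (O := O) K V) : Fin m → O) k ∈
        (Submodule.span O {a} : Ideal O) := by
      intro k
      have : ((ρΛ g z - z : latt (O := O) K V) : Fin m → O) k =
          ∑ l, (Mρ g - 1) k l * (z : Fin m → O) l := by
        rw [Submodule.coe_sub, hρΛ, restr_apply, repO_apply]
        simp only [Pi.sub_apply, Matrix.mulVec, dotProduct, Matrix.sub_apply, sub_mul,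
          Finset.sum_sub_distrib]
        congr 1
        simp [Matrix.one_apply]
      rw [this]
      exact Ideal.sum_mem _ fun l _ => Ideal.mul_mem_right _ _ (hI k l)
    have hx' : ∀ k, ∃ y : O, ((ρΛ g z - z : latt (O := O) K V) : Fin m → O) k = a * y := by
      intro k
      obtain ⟨y, hy⟩ := Ideal.mem_span_singleton'.mp (hx k)
      exact ⟨y, by rw [← hy, mul_comm]⟩
    choose y hy using hx'
    have hay : ((ρΛ g z - z : latt (O := O) K V) : Fin m → O) = a • y := by
      ext k
      rw [hy k, Pi.smul_apply, smul_eq_mul]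
    by_cases ha : a = 0
    · have : (ρΛ g z - z : latt (O := O) K V) = 0 := by
        apply Subtype.ext
        rw [hay, ha, zero_smul]
        rfl
      rw [this]
      simp
    · have hyΛ : y ∈ latt (O := O) K V := by
        apply latt_saturated ha
        rw [← hay]
        exact (ρΛ g z - z).2
      have : (ρΛ g z - z : latt (O := O) K V) = a • (⟨y, hyΛ⟩ : latt (O := O) K V) :=
        Subtype.ext hay
      rw [this, map_smul, Finsupp.smul_apply, smul_eq_mul]
      exact Ideal.mul_mem_right _ _ (Ideal.mem_span_singleton_self a)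
  set ρm : G →* Matrix (Fin r) (Fin r) O :=
    ((LinearMap.toMatrixAlgEquiv b).toAlgHom :
      Module.End O (latt (O := O) K V) →* Matrix (Fin r) (Fin r) O).comp ρΛ with hρm
  have hqm : QuadRel ρm ε t := hqΛ.map _
  have hentry : ∀ g i j, (ρm g - 1) i j = b.repr (ρΛ g (b j) - b j) i := by
    intro g i j
    have : ρm g - 1 = LinearMap.toMatrixAlgEquiv b (ρΛ g - 1) := by
      rw [_root_.map_sub (LinearMap.toMatrixAlgEquiv b), _root_.map_one (LinearMap.toMatrixAlgEquiv b)]
      rfl
    rw [this, LinearMap.toMatrixAlgEquiv_apply]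
    rfl
  have hr12 : r = 1 ∨ r = 2 := by omega
  rcases hr12 with rfl | rfl
  · -- one dimensional case
    let ψ : G →* O :=
      { toFun := fun g => ρm g 0 0
        map_one' := by simp
        map_mul' := fun g k => by simp [Matrix.mul_apply] }
    have hψ : ∀ g, ψ g * ψ g - t g * ψ g + ε g = 0 := by
      intro g
      have := congrFun (congrFun (hqm g) 0) 0
      have h' : ρm g 0 0 * ρm g 0 0 - t g * ρm g 0 0 + ε g = 0 := by
        simpa [Matrix.mul_apply] using this
      exact h'
    refine ⟨diagRep ψ ε, charpoly_diagRep hψ, ?_⟩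
    intro I g hI hε i j
    refine diagRep_control I g ?_ hε i j
    have := hctl I g hI (b 0) 0
    rw [← hentry] at this
    have h' : ρm g 0 0 - 1 ∈ I := by simpa using this
    exact h'
  · -- two dimensional case
    refine ⟨ρm, charpoly_of_quadRel hqm ?_, ?_⟩
    · by_contra hall
      push Not at hall
      -- every element acts as a scalar: the line through `lattBasis b 0` is invariant
      set v₀ : V := lattBasis b 0 with hv₀
      have hv₀ne : v₀ ≠ 0 := (lattBasis b).ne_zero 0
      have hinv : IsInv (restr (repK K Mρ) V hV) (Submodule.span K {v₀}) := by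
        intro g x hx
        obtain ⟨c, hc⟩ := hall g
        have h1 : ρΛ g = c • 1 := by
          apply (LinearMap.toMatrixAlgEquiv b).injective
          rw [map_smul, map_one]
          exact hc
        have h2 : restr (repK K Mρ) V hV g v₀ = algebraMap O K c • v₀ := by
          apply Subtype.ext
          rw [restr_apply, Submodule.coe_smul, hv₀, lattBasis_apply, repK_iota]
          have h3 : repO Mρ g (b 0 : Fin m → O) = c • (b 0 : Fin m → O) := by
            have := congrArg (fun f : Module.End O (latt (O := O) K V) =>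
              ((f (b 0) : latt (O := O) K V) : Fin m → O)) h1
            simpa [hρΛ] using this
          rw [h3, map_smul, algebraMap_smul]
        obtain ⟨d, rfl⟩ := Submodule.mem_span_singleton.mp hx
        rw [map_smul, h2]
        exact Submodule.smul_mem _ _ (Submodule.smul_mem _ _ (Submodule.mem_span_singleton_self _))
      rcases hirr _ hinv with h0 | h1
      · exact hv₀ne ((Submodule.span_singleton_eq_bot).mp h0)
      · have h2 : finrank K (Submodule.span K {v₀}) = 2 := by
          rw [h1, finrank_top, hr]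
        rw [finrank_span_singleton hv₀ne] at h2
        omega
    · intro I g hI _ i j
      rw [hentry]
      exact hctl I g hI (b j) i

end Fermat.Agent.ES.Rep23
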