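import Fermat.Agent.ES.Rep23.Main

/-!
# ES chain, package REP (part 6): wrappers

* `exists_rep_two_module` : abstract finite free module over a PID.
* `exists_rep_two_field` : finite dimensional vector space over a field.
* `isAlgClosed_quotient` : `ℤ̄ ⧸ 𝔪` is algebraically closed.
* `isMaximal_ker` : the kernel of `ℤ̄ →+* k`, `k` of positive characteristic, is maximal.
-/

set_option autoImplicit false

namespace Fermat.Agent.ES.Rep23

open Module Polynomial

section Module

variable {G O : Type*} (K : Type*) [Group G] [CommRing O] [Field K] [Algebra O K]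
  [IsDomain O] [IsFractionRing O K] [IsPrincipalIdealRing O]
  {T : Type*} [AddCommGroup T] [Module O T] [Module.Free O T] [Module.Finite O T] [Nontrivial T]

omit [IsDomain O] [IsPrincipalIdealRing O] [Module.Free O T] [Module.Finite O T]
  [Nontrivial T] in
theorem repr_mem_of_mem_smul_top {ι : Type*} (b : Basis ι O T) (I : Ideal O) {x : T}
    (hx : x ∈ I • (⊤ : Submodule O T)) (i : ι) : b.repr x i ∈ I := by
  induction hx using Submodule.smul_induction_on' with
  | smul r hr n _ =>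
    rw [map_smul, Finsupp.smul_apply, smul_eq_mul]
    exact I.mul_mem_right _ hr
  | add x _ y _ hx hy =>
    rw [map_add, Finsupp.add_apply]
    exact I.add_mem hx hy

/-- **REP, module form.** -/
theorem exists_rep_two_module (ρ : G →* Module.End O T) (ε : G →* O)
    (t : G → O) (h : QuadRel ρ ε t)
    (hcase : IsAlgClosed K ∨ ((2 : K) ≠ 0 ∧ ∃ c, ρ c * ρ c = 1 ∧ ε c = -1)) :
    ∃ ρ₂ : G →* Matrix (Fin 2) (Fin 2) O,
      (∀ g, (ρ₂ g).charpoly = X ^ 2 - C (t g) * X + C (ε g)) ∧
      ∀ (I : Ideal O) (g : G), (∀ x, ρ g x - x ∈ I • (⊤ : Submodule O T)) → ε g - 1 ∈ I →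
        ∀ i j, (ρ₂ g - 1) i j ∈ I := by
  classical
  let b := Module.finBasis O T
  have hm : 0 < finrank O T := Module.finrank_pos
  set Mρ : G →* Matrix (Fin (finrank O T)) (Fin (finrank O T)) O :=
    ((LinearMap.toMatrixAlgEquiv b).toAlgHom :
      Module.End O T →* Matrix (Fin (finrank O T)) (Fin (finrank O T)) O).comp ρ with hMρ
  have hq : QuadRel Mρ ε t := h.map _
  have hcase' : IsAlgClosed K ∨ ((2 : K) ≠ 0 ∧ ∃ c, Mρ c * Mρ c = 1 ∧ ε c = -1) := by
    rcases hcase with h1 | ⟨h2, c, hc, hε⟩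
    · exact Or.inl h1
    · refine Or.inr ⟨h2, c, ?_, hε⟩
      have : Mρ c * Mρ c = LinearMap.toMatrixAlgEquiv b (ρ c * ρ c) := by
        rw [_root_.map_mul (LinearMap.toMatrixAlgEquiv b)]
        rfl
      rw [this, hc, _root_.map_one (LinearMap.toMatrixAlgEquiv b)]
  obtain ⟨ρ₂, h1, h2⟩ := exists_rep_two_matrix K hm Mρ ε t hq hcase'
  refine ⟨ρ₂, h1, fun I g hI hε => h2 I g ?_ hε⟩
  intro i j
  have : Mρ g - 1 = LinearMap.toMatrixAlgEquiv b (ρ g - 1) := by
    rw [_root_.map_sub (LinearMap.toMatrixAlgEquiv b), _root_.map_one (LinearMap.toMatrixAlgEquiv b)]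
    rfl
  rw [this, LinearMap.toMatrixAlgEquiv_apply]
  exact repr_mem_of_mem_smul_top b I (hI (b j)) i

end Module

section Field

variable {G K W : Type*} [Group G] [Field K] [AddCommGroup W] [Module K W]
  [FiniteDimensional K W] [Nontrivial W]

/-- **REP, field form.** -/
theorem exists_rep_two_field (ρ : G →* Module.End K W) (ε : G →* K)
    (t : G → K) (h : QuadRel ρ ε t)
    (hcase : IsAlgClosed K ∨ ((2 : K) ≠ 0 ∧ ∃ c, ρ c * ρ c = 1 ∧ ε c = -1)) :
    ∃ ρ₂ : G →* Matrix (Fin 2) (Fin 2) K,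
      (∀ g, (ρ₂ g).charpoly = X ^ 2 - C (t g) * X + C (ε g)) ∧
      ∀ g : G, ρ g = 1 → ε g = 1 → ρ₂ g = 1 := by
  obtain ⟨ρ₂, h1, h2⟩ := exists_rep_two_module K ρ ε t h hcase
  refine ⟨ρ₂, h1, fun g hg hε => ?_⟩
  have := h2 ⊥ g (fun x => by rw [hg]; simp) (by rw [hε]; simp)
  ext i j
  have h3 := this i j
  rw [Ideal.mem_bot, Matrix.sub_apply, sub_eq_zero] at h3
  exact h3

end Field

section Zbar

/-- the residue fields of `ℤ̄` are algebraically closed. -/
theorem isAlgClosed_quotient (𝔪 : Ideal (integralClosure ℤ ℂ)) [h𝔪 : 𝔪.IsMaximal] :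
    letI := Ideal.Quotient.field 𝔪
    IsAlgClosed (integralClosure ℤ ℂ ⧸ 𝔪) := by
  letI := Ideal.Quotient.field 𝔪
  apply IsAlgClosed.of_exists_root
  intro f hf hirr
  have hlift : f ∈ Polynomial.lifts (Ideal.Quotient.mk 𝔪) := by
    rw [Polynomial.mem_lifts]
    exact Polynomial.map_surjective _ Ideal.Quotient.mk_surjective f
  obtain ⟨F, hF, hdeg, hmon⟩ := Polynomial.lifts_and_degree_eq_and_monic hlift hf
  have hdeg' : (F.map (algebraMap (integralClosure ℤ ℂ) ℂ)).degree ≠ 0 := by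
    rw [hmon.degree_map, hdeg]
    exact (Polynomial.degree_pos_of_irreducible hirr).ne'
  obtain ⟨z, hz⟩ := IsAlgClosed.exists_root _ hdeg'
  have hz' : Polynomial.eval₂ (algebraMap (integralClosure ℤ ℂ) ℂ) z F = 0 := by
    rwa [Polynomial.IsRoot.def, Polynomial.eval_map] at hz
  have hint : IsIntegral (integralClosure ℤ ℂ) z := ⟨F, hmon, hz'⟩
  have hint' : IsIntegral ℤ z := isIntegral_trans z hint
  let w : integralClosure ℤ ℂ := ⟨z, hint'⟩
  refine ⟨Ideal.Quotient.mk 𝔪 w, ?_⟩
  have hw : F.eval w = 0 := by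
    apply Subtype.ext
    have : ((F.eval w : integralClosure ℤ ℂ) : ℂ) =
        Polynomial.eval₂ (algebraMap (integralClosure ℤ ℂ) ℂ) z F := by
      have := Polynomial.hom_eval₂ F (RingHom.id _) (algebraMap (integralClosure ℤ ℂ) ℂ) w
      simpa [Polynomial.eval₂_id] using this
    rw [this, hz']
    rfl
  rw [← hF, Polynomial.eval_map, Polynomial.eval₂_hom, hw, map_zero]

/-- the kernel of a ring homomorphism from `ℤ̄` to a field of positive characteristic is
maximal. -/
theorem isMaximal_ker {k : Type*} [Field k] {p : ℕ} (hp : p.Prime) [CharP k p]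
    (φ : integralClosure ℤ ℂ →+* k) : (RingHom.ker φ).IsMaximal := by
  have hprime : (RingHom.ker φ).IsPrime := RingHom.ker_isPrime φ
  have hcomap : (RingHom.ker φ).comap (algebraMap ℤ (integralClosure ℤ ℂ)) =
      Ideal.span {(p : ℤ)} := by
    ext n
    rw [Ideal.mem_comap, RingHom.mem_ker, Ideal.mem_span_singleton]
    have : φ (algebraMap ℤ (integralClosure ℤ ℂ) n) = (n : k) := by
      simp
    rw [this]
    exact CharP.intCast_eq_zero_iff k p n
  have hmax : ((RingHom.ker φ).comap (algebraMap ℤ (integralClosure ℤ ℂ))).IsMaximal := by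
    rw [hcomap]
    have hp' : Prime (p : ℤ) := Nat.prime_iff_prime_int.mp hp
    exact PrincipalIdealRing.isMaximal_of_irreducible hp'.irreducible
  exact Ideal.isMaximal_of_isIntegral_of_isMaximal_comap _ hmax

end Zbar

end Fermat.Agent.ES.Rep23
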